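import Mathlib
import Fermat.Prelude.Def_FLTPrelim_Modularity

/-!
# Program E (S58), block STAB, node STAB-A: stabilisation of an eigen-sequence (pure arithmetic)

`IsEigenSeq N a` : the four clauses of the Prelude's `CuspForm.IsNormalizedEigenform` (level `N`)
on a bare coefficient sequence `a : ℕ → ℂ`.

`IsEigenSeq.stab` : if `a` is an eigen-sequence of level `M`, `q` is a prime not dividing `M` and
`β` is a root of `X² − a_q X + q`, then `b n := a n − β · a (n / q)` (second term only for `q ∣ n`)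
is an eigen-sequence of level `M * q`; `b ℓ = a ℓ` at every prime `ℓ ≠ q` and `b q = a q − β`.
-/

set_option autoImplicit false

open ModularFormClass

namespace Fermat.Agent.EC.Stab.CoeffSeq

/-- the four clauses of `CuspForm.IsNormalizedEigenform` on a bare sequence -/
structure IsEigenSeq (N : ℕ) (a : ℕ → ℂ) : Prop where
  one : a 1 = 1
  mul_of_coprime : ∀ m n : ℕ, m.Coprime n → a (m * n) = a m * a n
  prime_pow_of_not_dvd : ∀ p r : ℕ, p.Prime → ¬ p ∣ N →
    a (p ^ (r + 2)) = a p * a (p ^ (r + 1)) - p * a (p ^ r)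
  prime_pow_of_dvd : ∀ p r : ℕ, p.Prime → p ∣ N →
    a (p ^ (r + 2)) = a p * a (p ^ (r + 1))

/-- the eigen-sequence of a normalized eigenform -/
theorem isEigenSeq_iff {N : ℕ} (f : CuspForm (CongruenceSubgroup.Gamma0 N) 2) :
    IsEigenSeq N (fun n => qCoeff f n) ↔ f.IsNormalizedEigenform :=
  ⟨fun h => ⟨h.one, h.mul_of_coprime, h.prime_pow_of_not_dvd, h.prime_pow_of_dvd⟩,
   fun h => ⟨h.qCoeff_one, h.qCoeff_mul_of_coprime, h.qCoeff_prime_pow_of_not_dvd,
    h.qCoeff_prime_pow_of_dvd⟩⟩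

/-- the stabilised sequence `b n = a n − β · a (n / q)` (second term only for `q ∣ n`) -/
noncomputable def stabSeq (a : ℕ → ℂ) (q : ℕ) (β : ℂ) (n : ℕ) : ℂ :=
  a n - β * (if q ∣ n then a (n / q) else 0)

theorem stabSeq_of_not_dvd (a : ℕ → ℂ) (q : ℕ) (β : ℂ) {n : ℕ} (h : ¬ q ∣ n) :
    stabSeq a q β n = a n := by
  simp [stabSeq, h]

theorem stabSeq_of_dvd (a : ℕ → ℂ) (q : ℕ) (β : ℂ) {n : ℕ} (h : q ∣ n) :
    stabSeq a q β n = a n - β * a (n / q) := by
  simp [stabSeq, h]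

theorem stabSeq_mul_left (a : ℕ → ℂ) {q : ℕ} (hq : 0 < q) (β : ℂ) (n : ℕ) :
    stabSeq a q β (q * n) = a (q * n) - β * a n := by
  rw [stabSeq_of_dvd a q β (dvd_mul_right q n), Nat.mul_div_cancel_left n hq]

/-- at a prime `ℓ ≠ q` nothing changes -/
theorem stabSeq_prime (a : ℕ → ℂ) {q ℓ : ℕ} (hq : q.Prime) (hℓ : ℓ.Prime) (hℓq : ℓ ≠ q) (β : ℂ) :
    stabSeq a q β ℓ = a ℓ :=
  stabSeq_of_not_dvd a q β fun h => hℓq ((Nat.prime_dvd_prime_iff_eq hq hℓ).1 h).symm

theorem stabSeq_prime_pow (a : ℕ → ℂ) {q p : ℕ} (hq : q.Prime) (hp : p.Prime) (hpq : p ≠ q)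
    (β : ℂ) (k : ℕ) : stabSeq a q β (p ^ k) = a (p ^ k) :=
  stabSeq_of_not_dvd a q β fun h =>
    hpq ((Nat.prime_dvd_prime_iff_eq hq hp).1 (hq.dvd_of_dvd_pow h)).symm

/-- at `q` itself: `b q = a q − β` -/
theorem stabSeq_self {M : ℕ} {a : ℕ → ℂ} (ha : IsEigenSeq M a) {q : ℕ} (hq : q.Prime) (β : ℂ) :
    stabSeq a q β q = a q - β := by
  rw [stabSeq_of_dvd a q β dvd_rfl, Nat.div_self hq.pos, ha.one, mul_one]

theorem stabSeq_self_pow {a : ℕ → ℂ} {q : ℕ} (hq : q.Prime) (β : ℂ) (r : ℕ) :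
    stabSeq a q β (q ^ (r + 1)) = a (q ^ (r + 1)) - β * a (q ^ r) := by
  rw [pow_succ', stabSeq_mul_left a hq.pos]

/-- **stabilisation of an eigen-sequence** -/
theorem IsEigenSeq.stab {M : ℕ} {a : ℕ → ℂ} (ha : IsEigenSeq M a) {q : ℕ} (hq : q.Prime)
    (hqM : ¬ q ∣ M) {β : ℂ} (hβ : β ^ 2 - a q * β + q = 0) :
    IsEigenSeq (M * q) (stabSeq a q β) where
  one := by
    rw [stabSeq_of_not_dvd a q β (fun h => hq.one_lt.ne' (Nat.dvd_one.1 h)), ha.one]
  mul_of_coprime m n hmn := by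
    by_cases hm : q ∣ m
    · have hn : ¬ q ∣ n := fun hn => hq.one_lt.ne' (Nat.dvd_one.1 (hmn ▸ Nat.dvd_gcd hm hn))
      obtain ⟨m', rfl⟩ := hm
      have hm'n : m'.Coprime n := Nat.Coprime.coprime_dvd_left (dvd_mul_left m' q) hmn
      rw [mul_assoc, stabSeq_mul_left a hq.pos, stabSeq_mul_left a hq.pos,
        stabSeq_of_not_dvd a q β hn, ← mul_assoc, ha.mul_of_coprime _ _ hmn,
        ha.mul_of_coprime _ _ hm'n]
      ring
    · by_cases hn : q ∣ n
      · obtain ⟨n', rfl⟩ := hn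
        have hmn' : m.Coprime n' := Nat.Coprime.coprime_dvd_right (dvd_mul_left n' q) hmn
        rw [show m * (q * n') = q * (m * n') by ring, stabSeq_mul_left a hq.pos,
          stabSeq_mul_left a hq.pos, stabSeq_of_not_dvd a q β hm,
          show q * (m * n') = m * (q * n') by ring, ha.mul_of_coprime _ _ hmn,
          ha.mul_of_coprime _ _ hmn']
        ring
      · rw [stabSeq_of_not_dvd a q β hm, stabSeq_of_not_dvd a q β hn,
          stabSeq_of_not_dvd a q β (fun h => (hq.dvd_mul.1 h).elim hm hn),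
          ha.mul_of_coprime _ _ hmn]
  prime_pow_of_not_dvd p r hp hpMq := by
    have hpq : p ≠ q := fun h => hpMq (h ▸ dvd_mul_left p M)
    have hpM : ¬ p ∣ M := fun h => hpMq (h.mul_right q)
    rw [stabSeq_prime_pow a hq hp hpq, stabSeq_prime_pow a hq hp hpq,
      stabSeq_prime_pow a hq hp hpq, stabSeq_prime a hq hp hpq,
      ha.prime_pow_of_not_dvd p r hp hpM]
  prime_pow_of_dvd p r hp hpMq := by
    by_cases hpq : p = q
    · subst hpq
      rw [stabSeq_self_pow hp, stabSeq_self_pow hp, stabSeq_self ha hp,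
        ha.prime_pow_of_not_dvd p r hp hqM]
      linear_combination (-(a (p ^ r))) * hβ
    · have hpM : p ∣ M := (hp.dvd_mul.1 hpMq).elim id
        fun h => absurd ((Nat.prime_dvd_prime_iff_eq hp hq).1 h) hpq
      rw [stabSeq_prime_pow a hq hp hpq, stabSeq_prime_pow a hq hp hpq,
        stabSeq_prime a hq hp hpq, ha.prime_pow_of_dvd p r hp hpM]

/-- existence of the root `β` -/
theorem exists_root (c : ℂ) (q : ℕ) : ∃ β : ℂ, β ^ 2 - c * β + q = 0 := by
  obtain ⟨β, hβ⟩ := Complex.exists_root (f := Polynomial.X ^ 2 - Polynomial.C c * Polynomial.X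
    + Polynomial.C (q : ℂ)) (by
      have h2 : (Polynomial.X ^ 2 - Polynomial.C c * Polynomial.X + Polynomial.C (q : ℂ)).degree
          = 2 := by
        compute_degree!
      rw [h2]; norm_num)
  refine ⟨β, ?_⟩
  simpa using hβ

end Fermat.Agent.EC.Stab.CoeffSeq
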