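import Fermat.Agent.EC.Stab.Raise
import Fermat.Agent.EC.Stab.CoeffSeq
import Fermat.Agent.EC.Final.Contracts

/-!
# Program E (S58), node STAB-B (B3): the block contract `StabOut`

* `exists_raise` : a normalized eigenform `g` of level `M` and a prime `q ∤ M` give a normalized
  eigenform of level `M q` with the same coefficients at the primes `ℓ ≠ q`
  (`Raise.raise hq g β` for a root `β` of `X² - a_q X + q`; its coefficient sequence is
  `CoeffSeq.stabSeq`, an eigen-sequence of level `M q` by `CoeffSeq.IsEigenSeq.stab`);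
* `exists_stab_of_eq_mul` : iteration over the primes of `C / M` for `C` squarefree;
* **`stabOut : Final.Contracts.StabOut`**.
-/

set_option autoImplicit false
set_option linter.style.haveILetI false
set_option linter.unusedSectionVars false

open CongruenceSubgroup ModularFormClass CuspForm

namespace Fermat.Agent.EC.Stab.Main

open Fermat.Agent.EC.Stab.Raise Fermat.Agent.EC.Stab.CoeffSeq

/-- **One step of stabilisation.** -/
theorem exists_raise {M : ℕ} [NeZero M] {g : CuspForm (Gamma0 M) 2}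
    (hg : g.IsNormalizedEigenform) {q : ℕ} (hq : q.Prime) (hqM : ¬ q ∣ M) :
    ∃ f' : CuspForm (Gamma0 (M * q)) 2, f'.IsNormalizedEigenform ∧
      ∀ ℓ : ℕ, ℓ.Prime → ℓ ≠ q → qCoeff ⇑f' ℓ = qCoeff ⇑g ℓ := by
  obtain ⟨β, hβ⟩ := exists_root (qCoeff ⇑g q) q
  refine ⟨raise hq g β, ?_, ?_⟩
  · have h1 : (fun n => qCoeff ⇑(raise hq g β) n) = stabSeq (fun n => qCoeff ⇑g n) q β := by
      funext n
      exact qCoeff_raise hg hq hqM β n
    rw [← isEigenSeq_iff, h1]
    exact ((isEigenSeq_iff g).mpr hg).stab hq hqM hβ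
  · intro ℓ hℓ hℓq
    rw [qCoeff_raise hg hq hqM β ℓ]
    exact stabSeq_prime (fun n => qCoeff ⇑g n) hq hℓ hℓq β

/-- **Iterated stabilisation** to a squarefree multiple `C = M n` of the level. -/
theorem exists_stab_of_eq_mul : ∀ (n M C : ℕ), C = M * n → Squarefree C →
    ∀ g : CuspForm (Gamma0 M) 2, g.IsNormalizedEigenform →
      ∃ f' : CuspForm (Gamma0 C) 2, f'.IsNormalizedEigenform ∧
        ∀ ℓ : ℕ, ℓ.Prime → ¬ ℓ ∣ C → qCoeff ⇑f' ℓ = qCoeff ⇑g ℓ := by
  intro n
  induction n using Nat.strong_induction_on with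
  | _ n ih =>
    intro M C hC hsq g hg
    by_cases hn : n = 1
    · subst hn
      rw [mul_one] at hC
      subst hC
      exact ⟨g, hg, fun _ _ _ => rfl⟩
    · obtain ⟨q, hq, n', rfl⟩ := Nat.exists_prime_and_dvd hn
      have hC0 : C ≠ 0 := hsq.ne_zero
      have hM0 : M ≠ 0 := fun h => hC0 (by rw [hC, h, zero_mul])
      have hn'0 : n' ≠ 0 := fun h => hC0 (by rw [hC, h, mul_zero, mul_zero])
      have hqM : ¬ q ∣ M := by
        rintro ⟨m, rfl⟩
        have h2 : q * q ∣ C := ⟨m * n', by rw [hC]; ring⟩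
        exact hq.one_lt.ne' (Nat.isUnit_iff.mp (hsq q h2))
      haveI : NeZero M := ⟨hM0⟩
      obtain ⟨g₁, hg₁, hg₁g⟩ := exists_raise hg hq hqM
      have hlt : n' < q * n' := by
        have := hq.two_le
        have h1 : 0 < n' := Nat.pos_of_ne_zero hn'0
        nlinarith
      obtain ⟨f', hf', hf'g⟩ := ih n' hlt (M * q) C (by rw [hC]; ring) hsq g₁ hg₁
      refine ⟨f', hf', fun ℓ hℓ hℓC => ?_⟩
      rw [hf'g ℓ hℓ hℓC]
      refine hg₁g ℓ hℓ (fun h => hℓC ?_)
      rw [h, hC]
      exact ⟨M * n', by ring⟩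

/-- **The block contract `StabOut` of the top-level binder map.** -/
theorem stabOut : Fermat.Agent.EC.Final.Contracts.StabOut := by
  rintro M C ⟨n, hn⟩ hsq g hg
  exact exists_stab_of_eq_mul n M C hn hsq g hg

end Fermat.Agent.EC.Stab.Main
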