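import Fermat.Prelude.Def_FLTPrelim_Modularity
import Mathlib.NumberTheory.ModularForms.Basic
import Mathlib.NumberTheory.ModularForms.Cusps

/-!
# Program E (S58), node STAB-B (B1): the inclusion of cusp forms `Γ₀(M) → Γ₀(C)` for `M ∣ C`

`levelIncl h k : CuspForm (Gamma0 M) k →ₗ[ℂ] CuspForm (Gamma0 C) k` for `h : M ∣ C`: the SAME
function on the upper half plane (`Γ₀(C) ≤ Γ₀(M)`; a cusp of the smaller group is a cusp of the
bigger one), hence the same `q`-expansion: `qCoeff_levelIncl` is `rfl`.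
-/

set_option autoImplicit false

open CongruenceSubgroup ModularFormClass
open scoped MatrixGroups

namespace Fermat.Agent.EC.Stab.Incl

/-- `Γ₀(C) ≤ Γ₀(M)` for `M ∣ C`. -/
theorem gamma0_le_of_dvd {M C : ℕ} (h : M ∣ C) : Gamma0 C ≤ Gamma0 M := by
  intro g hg
  rw [Gamma0_mem] at hg ⊢
  rw [ZMod.intCast_zmod_eq_zero_iff_dvd] at hg ⊢
  exact dvd_trans (by exact_mod_cast h) hg

/-- the same inclusion for the images in `GL (Fin 2) ℝ`. -/
theorem map_gamma0_le_of_dvd {M C : ℕ} (h : M ∣ C) :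
    ((Gamma0 C : Subgroup SL(2, ℤ)) : Subgroup (GL (Fin 2) ℝ)) ≤
      ((Gamma0 M : Subgroup SL(2, ℤ)) : Subgroup (GL (Fin 2) ℝ)) :=
  Subgroup.map_mono (gamma0_le_of_dvd h)

/-- **(B1)** A cusp form of level `M`, seen as a cusp form of level `C` for `M ∣ C`. -/
noncomputable def levelIncl {M C : ℕ} (h : M ∣ C) (k : ℤ) :
    CuspForm (Gamma0 M) k →ₗ[ℂ] CuspForm (Gamma0 C) k where
  toFun g :=
    { toFun := g
      slash_action_eq' := fun γ hγ => g.slash_action_eq' γ (map_gamma0_le_of_dvd h hγ)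
      holo' := g.holo'
      zero_at_cusps' := fun hc => g.zero_at_cusps' (hc.mono (map_gamma0_le_of_dvd h)) }
  map_add' _ _ := rfl
  map_smul' _ _ := rfl

@[simp] theorem coe_levelIncl {M C : ℕ} (h : M ∣ C) (k : ℤ) (g : CuspForm (Gamma0 M) k) :
    ⇑(levelIncl h k g) = ⇑g := rfl

theorem levelIncl_apply {M C : ℕ} (h : M ∣ C) (k : ℤ) (g : CuspForm (Gamma0 M) k)
    (τ : UpperHalfPlane) : levelIncl h k g τ = g τ := rfl

/-- the `q`-expansion does not change. -/
theorem qCoeff_levelIncl {M C : ℕ} (h : M ∣ C) (k : ℤ) (g : CuspForm (Gamma0 M) k) (n : ℕ) :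
    qCoeff ⇑(levelIncl h k g) n = qCoeff ⇑g n := rfl

end Fermat.Agent.EC.Stab.Incl
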