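import Fermat.Agent.EC.Stab.Incl
import Fermat.Agent.S49.Forms

/-!
# Program E (S58), node STAB-B (B2): the `q`-stabilisation of an eigenform of level `M`, `q ∤ M`

For `g` a cusp form of weight `2` and level `M`, `q` a prime and `β : ℂ`:

* `vOp hq g : CuspForm (Gamma0 (M * q)) 2` := `(a_q(g) • g - U_q g) / q` computed at level `M q`
  with the Prelude's `CuspForm.heckeULin` (`q ∣ M q`), `g` being seen at level `M q` by
  `Incl.levelIncl`;  `qCoeff_vOp` : its `n`-th coefficient is `(a_q a_n - a_{nq}) / q`;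
* `qCoeff_mul_sub` : for a NORMALIZED EIGENFORM `g` and `q ∤ M`,
  `a_q a_n - a_{nq} = q · a_{n/q}` (`:= 0` if `q ∤ n`) — "`T_q = U_q + q V_q`" on coefficients, from the
  four clauses of `CuspForm.IsNormalizedEigenform` and `a_0 = 0`;
* `raise hq g β` := `g - β • vOp hq g`;  `qCoeff_raise` : its `n`-th coefficient is
  `a_n - β · a_{n/q}`.
-/

set_option autoImplicit false
set_option linter.style.haveILetI false
set_option linter.unusedSectionVars false

open CongruenceSubgroup ModularFormClass CuspForm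

namespace Fermat.Agent.EC.Stab.Raise

open Fermat.Agent.EC.Stab.Incl Fermat.Agent.S49

noncomputable section

variable {M : ℕ} [NeZero M] {q : ℕ}

theorem qCoeff_sub' {N : ℕ} {k : ℤ} (f g : CuspForm (Gamma0 N) k) (n : ℕ) :
    qCoeff ⇑(f - g) n = qCoeff ⇑f n - qCoeff ⇑g n := by
  have := (qCoeffLin N k n).map_sub f g
  simpa only [qCoeffLin_apply] using this

/-- the coefficients of `U_q f` at a level divisible by `q`. -/
theorem qCoeff_heckeULin {N : ℕ} [NeZero N] (hq : q.Prime) (hqN : q ∣ N)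
    (f : CuspForm (Gamma0 N) 2) (n : ℕ) :
    qCoeff ⇑(CuspForm.heckeULin 2 hqN f) n = qCoeff ⇑f (n * q) := by
  rw [CuspForm.coe_heckeULin_apply,
    ModularFormClass.qCoeff_heckeU f (one_mem_strictPeriods N) hq.ne_zero n,
    ModularForm.coeffHeckeU_apply]

/-- **`V_q g = (a_q(g) g - U_q g) / q`** at level `M q`. -/
def vOp (hq : q.Prime) (g : CuspForm (Gamma0 M) 2) : CuspForm (Gamma0 (M * q)) 2 :=
  haveI : NeZero (M * q) := ⟨Nat.mul_ne_zero (NeZero.ne M) hq.ne_zero⟩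
  ((q : ℂ))⁻¹ • (qCoeff ⇑g q • levelIncl (dvd_mul_right M q) 2 g
    - CuspForm.heckeULin 2 (dvd_mul_left q M) (levelIncl (dvd_mul_right M q) 2 g))

theorem qCoeff_vOp (hq : q.Prime) (g : CuspForm (Gamma0 M) 2) (n : ℕ) :
    qCoeff ⇑(vOp hq g) n =
      ((q : ℂ))⁻¹ * (qCoeff ⇑g q * qCoeff ⇑g n - qCoeff ⇑g (n * q)) := by
  haveI : NeZero (M * q) := ⟨Nat.mul_ne_zero (NeZero.ne M) hq.ne_zero⟩
  unfold vOp
  rw [qCoeff_smul', qCoeff_sub', qCoeff_smul', qCoeff_heckeULin hq, qCoeff_levelIncl,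
    qCoeff_levelIncl]

/-- **"`T_q = U_q + q V_q`" on the coefficients of a normalized eigenform**, `q ∤ M`. -/
theorem qCoeff_mul_sub {g : CuspForm (Gamma0 M) 2} (hg : g.IsNormalizedEigenform)
    (hq : q.Prime) (hqM : ¬ q ∣ M) (n : ℕ) :
    qCoeff ⇑g q * qCoeff ⇑g n - qCoeff ⇑g (n * q) =
      (q : ℂ) * (if q ∣ n then qCoeff ⇑g (n / q) else 0) := by
  rcases Nat.eq_zero_or_pos n with rfl | hn
  · rw [zero_mul, qCoeff_zero_cusp, if_pos (dvd_zero q), Nat.zero_div, qCoeff_zero_cusp]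
    ring
  obtain ⟨r, m, hqm, rfl⟩ := Nat.exists_eq_pow_mul_and_not_dvd hn.ne' q hq.ne_one
  have hcop : ∀ s : ℕ, (q ^ s).Coprime m := fun s =>
    Nat.Coprime.pow_left s ((Nat.Prime.coprime_iff_not_dvd hq).mpr hqm)
  have e1 : q ^ r * m * q = q ^ (r + 1) * m := by ring
  rw [e1, hg.qCoeff_mul_of_coprime _ _ (hcop r), hg.qCoeff_mul_of_coprime _ _ (hcop (r + 1))]
  rcases r with _ | s
  · have hnd : ¬ q ∣ q ^ 0 * m := by simpa using hqm
    rw [if_neg hnd, pow_zero, zero_add, pow_one, hg.qCoeff_one]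
    ring
  · have hd : q ∣ q ^ (s + 1) * m := Dvd.dvd.mul_right (dvd_pow_self q (Nat.succ_ne_zero s)) m
    have e2 : q ^ (s + 1) * m / q = q ^ s * m := by
      rw [pow_succ, mul_assoc, mul_comm q m, ← mul_assoc]
      exact Nat.mul_div_cancel _ hq.pos
    rw [if_pos hd, e2, hg.qCoeff_mul_of_coprime _ _ (hcop s),
      hg.qCoeff_prime_pow_of_not_dvd q s hq hqM]
    ring

/-- **(B2)** the stabilisation `g - β V_q g` at level `M q`. -/
def raise (hq : q.Prime) (g : CuspForm (Gamma0 M) 2) (β : ℂ) : CuspForm (Gamma0 (M * q)) 2 :=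
  levelIncl (dvd_mul_right M q) 2 g - β • vOp hq g

/-- the coefficients of the stabilisation: `a_n - β a_{n/q}`. -/
theorem qCoeff_raise {g : CuspForm (Gamma0 M) 2} (hg : g.IsNormalizedEigenform)
    (hq : q.Prime) (hqM : ¬ q ∣ M) (β : ℂ) (n : ℕ) :
    qCoeff ⇑(raise hq g β) n =
      qCoeff ⇑g n - β * (if q ∣ n then qCoeff ⇑g (n / q) else 0) := by
  have hq0 : (q : ℂ) ≠ 0 := Nat.cast_ne_zero.mpr hq.ne_zero
  unfold raise
  rw [qCoeff_sub', qCoeff_smul', qCoeff_vOp, qCoeff_levelIncl, qCoeff_mul_sub hg hq hqM]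
  congr 1
  rw [← mul_assoc (q : ℂ)⁻¹, inv_mul_cancel₀ hq0, one_mul]

end

end Fermat.Agent.EC.Stab.Raise
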